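/-
MLT / [L1] case (C), ORDINARY case (helper9): fork of `Lib/Ihara/Sc/Out.lean` with the condition at `p`
`IsOrdinaryAt p` (`p ∤ N`, S32) replaced by `IsOrdinaryAt p` (`p ∥ N` and `ρbar` ordinary at `p`, S33).  Generated by a
rename script from the frozen file: only the declarations depending on the condition at `p` are repeated,
with the prefix `ih`/`Ih` replaced by `kh`/`Kh`.
-/
import Mathlib
import Fermat.Agent.Lib.Ihara.Sc.Field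
import Fermat.Agent.Lib.Ihara.Glue.Out
import Fermat.Agent.Lib.MLT.CO.I.Glue.Out
import Fermat.Agent.Lib.MLT.CO.I.Glue.Rep
import Fermat.Agent.Lib.MLT.CO.I.Img.Rep
import Fermat.Agent.Lib.Ihara.Sc.Out

set_option autoImplicit false
set_option linter.unusedSectionVars false
set_option linter.unusedVariables false
set_option linter.style.haveILetI false

open Matrix MatrixGroups CongruenceSubgroup ModularCurve ModularCurve.Period Module IsLocalRing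
open Fermat.Agent.DS Fermat.Agent.T1 Fermat.Agent.T1G Fermat.Agent.T2 Fermat.Agent.S53Lib
  Fermat.Agent.TW
open scoped TensorProduct

namespace Fermat.Agent.Ihara

local notation "Qbar" => AlgebraicClosure ℚ
local notation "GQ" => (AlgebraicClosure ℚ ≃ₐ[ℚ] AlgebraicClosure ℚ)

section Out

variable (O : Type) [CommRing O] [IsDomain O] [IsDiscreteValuationRing O] [CharZero O]
  [IsAdicComplete (maximalIdeal O) O] [Finite (ResidueField O)]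
  (M : ℕ) [NeZero M] (hM : 6 ≤ M) (H : Subgroup (ZMod M)ˣ) (Ps : Set ℕ) (θ : ℕ → O)
  (Δ₁ : Subgroup ((ZMod M)ˣ ⧸ H)) (χ : Δ₁ →* O)
  {N' : ℕ} [NeZero N'] {S : Finset ℕ}
  (a : CuspForm.heckeAlgebra N' 2 (↑S : Set ℕ) →+*
    Module.End O (IhmChiPart O M hM H Ps θ Δ₁ χ))
  (θ' : CuspForm.heckeAlgebra N' 2 (↑S : Set ℕ) →+* ResidueField O)

variable (hpart : ihdPart O a θ' = ⊤) [Nontrivial ↥(ihdPart O a θ')]
  (rA : GQ →* Matrix (Fin 2) (Fin 2) (IhdImg O a θ')) (hcts : MatCts (IhdImg O a θ') rA)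
  {z : ℕ → (ZMod M)ˣ} {p : ℕ} {ρbar : ResidualGaloisRep (ResidueField O)}
  {b : Module.Basis (Fin 2) (ResidueField O) ρbar.V} {Smin : Finset ℕ}
  (out : KhkOut O M hM H Ps θ Δ₁ χ z p ρbar b Smin a θ' hpart rA hcts)
  (hS : ∀ l : ℕ, l.Prime → l ∣ N' → l ∈ S)

include out hS in
/-- `ρM (τ ℓ) = T_ℓ ⟨z ℓ⟩` -/
theorem khsc_out_act (ℓ : ℕ) (hℓ : ℓ.Prime) (hℓS : ℓ ∉ S) :
    ihiAct O a θ' hpart (ihscTau O M hM H Ps θ Δ₁ χ a θ' ℓ)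
      = ihmChiOp O M hM H Ps θ Δ₁ χ ℓ *
        ihmChiDia O M hM H Ps θ Δ₁ χ ((z ℓ : (ZMod M)ˣ) : (ZMod M)ˣ ⧸ H) := by
  have hℓN : ¬ ℓ ∣ N' := fun h => hℓS (hS ℓ hℓ h)
  have hℓS' : ℓ ∉ (↑S : Set ℕ) := by exact_mod_cast hℓS
  rw [ihscTau_of O M hM H Ps θ Δ₁ χ a θ' hℓ hℓN hℓS', ihiAct_pi, out.hecke ℓ hℓ hℓN hℓS']

include out hS in
/-- `tr rA(Frob_ℓ) = τ ℓ`, `det rA(Frob_ℓ) = ℓ` for `ℓ ∉ S` -/
theorem khsc_out_frob (hpS : p ∈ S) (ℓ : ℕ) (hℓ : ℓ.Prime) (hℓS : ℓ ∉ S)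
    (P : ValuationSubring Qbar) (hP : P.LiesOverPrime ℓ) (σ : GQ) (hσ : P.IsFrobeniusAt σ ℓ) :
    (rA σ).trace = ihscTau O M hM H Ps θ Δ₁ χ a θ' ℓ ∧ (rA σ).det = (ℓ : IhdImg O a θ') := by
  have hℓN : ¬ ℓ ∣ N' := fun h => hℓS (hS ℓ hℓ h)
  have hℓS' : ℓ ∉ (↑S : Set ℕ) := by exact_mod_cast hℓS
  have hℓp : ℓ ≠ p := fun h => hℓS (h ▸ hpS)
  refine ⟨?_, (out.det ℓ hℓ hℓp P hP).1 σ hσ⟩
  apply ihiAct_injective O a θ' hpart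
  rw [out.trace_frob ℓ hℓ hℓN hℓS' P hP σ hσ, ihscTau_of O M hM H Ps θ Δ₁ χ a θ' hℓ hℓN hℓS',
    ihiAct_pi]

end Out

section FieldOut

variable (O : Type) [CommRing O] [IsDomain O] [IsDiscreteValuationRing O] [CharZero O]
  [IsAdicComplete (maximalIdeal O) O] [Finite (ResidueField O)]
  (M : ℕ) [NeZero M] (hM : 6 ≤ M) (H : Subgroup (ZMod M)ˣ) (Ps : Set ℕ) (θ : ℕ → O)
  (Δ₁ : Subgroup ((ZMod M)ˣ ⧸ H)) (χ : Δ₁ →* O)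
  (Δ₁' : Subgroup ((ZMod M)ˣ ⧸ H)) (χ' : Δ₁' →* O)
  (hle : Δ₁ ≤ Δ₁') (hχ : ∀ g : Δ₁, χ' ⟨g, hle g.2⟩ = χ g)
  (γ : (ZMod M)ˣ ⧸ H) (hγ : γ ∈ Δ₁') (hγ1 : χ' ⟨γ, hγ⟩ = 1)
  (hsup : Δ₁' ≤ Δ₁ ⊔ Subgroup.zpowers γ)

end FieldOut

end Fermat.Agent.Ihara
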